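import Mathlib

/-!
# RIBET row 38 / ELOC-ord / leaf (K): the abstract Kummer-unit lemma (helper287)

Mathlib only.  A group `G` acts on a field `L` preserving a valuation ring `A` and fixing a
primitive `p`-th root of unity `ζ`; `γ : ℤ/p → L` is permuted through `c : G → ℤ/p`
(`τ γ_j = γ_{j + c τ}`), and `γ 1 - γ 0` has the valuation of a `G`-fixed element `b`.
Then there is a unit `y` of `A` with `τ y = ζ ^ c(τ) · y` for all `τ`.

Proof: Lagrange resolvents `α_i = ∑_j ζ^{-ij} γ_j`, `τ α_i = ζ^{i c(τ)} α_i`,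
`p (γ 1 - γ 0) = ∑_i (ζ^i - 1) α_i`; put `β_i = (ζ^i - 1) α_i / (p b)`, `∑ β_i` is a unit.
By the ultrametric inequality either some `β_i` is a unit, or two of them have the same
(maximal) valuation and their quotient is a unit; a suitable power has exponent `1`.
-/

set_option autoImplicit false
set_option linter.unusedVariables false

namespace Fermat.Agent.Ribet.H287

section Roots

variable {L : Type*} [Field L] {p : ℕ} [Fact p.Prime] {ζ : L}

/-- `k ↦ ζ ^ k` on `ℤ/p`. -/
def zpw (ζ : L) (k : ZMod p) : L := ζ ^ k.val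

theorem zpw_zero : zpw (p := p) ζ 0 = 1 := by
  simp [zpw]

theorem zpw_add (hζ : IsPrimitiveRoot ζ p) (k l : ZMod p) :
    zpw ζ (k + l) = zpw ζ k * zpw ζ l := by
  unfold zpw
  rw [ZMod.val_add, ← pow_add]
  exact (pow_eq_pow_mod (k.val + l.val) hζ.pow_eq_one).symm

theorem zpw_ne_zero (hζ : IsPrimitiveRoot ζ p) (k : ZMod p) : zpw ζ k ≠ 0 :=
  pow_ne_zero _ (hζ.ne_zero (Fact.out : p.Prime).ne_zero)

theorem zpw_neg_mul (hζ : IsPrimitiveRoot ζ p) (k : ZMod p) : zpw ζ (-k) * zpw ζ k = 1 := by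
  rw [← zpw_add hζ, neg_add_cancel, zpw_zero]

theorem zpw_sub (hζ : IsPrimitiveRoot ζ p) (k l : ZMod p) :
    zpw ζ (k - l) = zpw ζ k / zpw ζ l := by
  rw [eq_div_iff (zpw_ne_zero hζ l), ← zpw_add hζ, sub_add_cancel]

theorem zpw_pow (hζ : IsPrimitiveRoot ζ p) (k : ZMod p) (n : ℕ) :
    zpw ζ k ^ n = zpw ζ ((n : ZMod p) * k) := by
  induction n with
  | zero => simp [zpw_zero]
  | succ n ih =>
    rw [pow_succ, ih, ← zpw_add hζ]
    congr 1
    push_cast
    ring

theorem sum_zpw (hζ : IsPrimitiveRoot ζ p) : ∑ i : ZMod p, zpw ζ i = 0 := by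
  have hp : p.Prime := Fact.out
  have h := hζ.geom_sum_eq_zero hp.one_lt
  rw [← h]
  refine Finset.sum_nbij' (fun i => i.val) (fun n => (n : ZMod p)) ?_ ?_ ?_ ?_ ?_
  · intro i _
    exact Finset.mem_range.mpr (ZMod.val_lt i)
  · intro n _
    exact Finset.mem_univ _
  · intro i _
    exact ZMod.natCast_zmod_val i
  · intro n hn
    exact ZMod.val_natCast_of_lt (Finset.mem_range.mp hn)
  · intro i _
    rfl

theorem sum_zpw_mul (hζ : IsPrimitiveRoot ζ p) (m : ZMod p) :
    ∑ i : ZMod p, zpw ζ (i * m) = if m = 0 then (p : L) else 0 := by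
  split_ifs with hm
  · subst hm
    simp [zpw_zero]
  · rw [← sum_zpw hζ]
    exact Fintype.sum_equiv (Equiv.mulRight₀ m hm) _ _ (fun i => rfl)

end Roots

/-- **(K)**, the abstract Kummer-unit lemma (verbatim body of `H375.KummerUnitStatement`). -/
theorem kummerUnit_core (L : Type) [Field L] (A : ValuationSubring L) (G : Type) [Group G]
    [MulSemiringAction G L] (p : ℕ) (hp : p.Prime) (hpL : (p : L) ≠ 0)
    (hA : ∀ (τ : G) (a : L), a ∈ A → τ • a ∈ A)
    (ζ : L) (hζ : IsPrimitiveRoot ζ p) (hζfix : ∀ τ : G, τ • ζ = ζ)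
    (c : G → ZMod p) (γ : ZMod p → L) (hγ : ∀ (τ : G) (j : ZMod p), τ • γ j = γ (j + c τ))
    (b : L) (hb : ∀ τ : G, τ • b = b) (hb0 : b ≠ 0)
    (hval : A.valuation ((γ 1 - γ 0) / b) = 1) :
    ∃ y : L, y ∈ A ∧ y⁻¹ ∈ A ∧ ∀ τ : G, τ • y = ζ ^ (c τ).val * y := by
  classical
  have : Fact p.Prime := ⟨hp⟩
  set z : ZMod p → L := zpw ζ with hz
  have z_fix : ∀ (τ : G) (k : ZMod p), τ • z k = z k := by
    intro τ k
    simp only [hz, zpw, smul_pow', hζfix]
  have p_fix : ∀ τ : G, τ • (p : L) = (p : L) := by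
    intro τ
    exact map_natCast (MulSemiringAction.toRingHom G L τ) p
  -- resolvents
  set α : ZMod p → L := fun i => ∑ j : ZMod p, z (-(i * j)) * γ j with hα
  have α_smul : ∀ (τ : G) (i : ZMod p), τ • α i = z (i * c τ) * α i := by
    intro τ i
    simp only [hα, Finset.smul_sum, smul_mul', z_fix, hγ, Finset.mul_sum]
    refine Fintype.sum_equiv (Equiv.addRight (c τ)) _ _ (fun j => ?_)
    simp only [Equiv.coe_addRight]
    rw [← mul_assoc, ← zpw_add hζ]
    congr 2
    ring
  -- Fourier inversion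
  have inv : ∀ j : ZMod p, ∑ i : ZMod p, z (i * j) * α i = (p : L) * γ j := by
    intro j
    simp only [hα, Finset.mul_sum]
    rw [Finset.sum_comm]
    have : ∀ k : ZMod p, ∑ i : ZMod p, z (i * j) * (z (-(i * k)) * γ k) =
        (if j - k = 0 then (p : L) else 0) * γ k := by
      intro k
      rw [← sum_zpw_mul hζ (j - k), Finset.sum_mul]
      refine Finset.sum_congr rfl (fun i _ => ?_)
      rw [← mul_assoc, ← zpw_add hζ]
      congr 2
      ring
    simp only [this]
    rw [Finset.sum_eq_single j]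
    · simp
    · intro k _ hk
      have : j - k ≠ 0 := sub_ne_zero.mpr (Ne.symm hk)
      simp [this]
    · intro h
      exact absurd (Finset.mem_univ j) h
  have key : (p : L) * (γ 1 - γ 0) = ∑ i : ZMod p, (z i - 1) * α i := by
    have h1 := inv 1
    have h0 := inv 0
    simp only [mul_one, mul_zero] at h1 h0
    rw [mul_sub, ← h1, ← h0, ← Finset.sum_sub_distrib]
    refine Finset.sum_congr rfl (fun i _ => ?_)
    rw [hz, zpw_zero]
    ring
  -- normalised resolvents
  set β : ZMod p → L := fun i => (z i - 1) * α i / ((p : L) * b) with hβ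
  have β_smul : ∀ (τ : G) (i : ZMod p), τ • β i = z (i * c τ) * β i := by
    intro τ i
    simp only [hβ, smul_div₀', smul_mul', smul_sub, smul_one, z_fix, α_smul, p_fix, hb]
    ring
  have β_sum : ∑ i : ZMod p, β i = (γ 1 - γ 0) / b := by
    simp only [hβ]
    rw [← Finset.sum_div, ← key]
    field_simp
  have β_zero : β 0 = 0 := by
    simp [hβ, hz, zpw_zero]
  set v := A.valuation with hv
  have hsum : v (∑ i : ZMod p, β i) = 1 := by rw [β_sum]; exact hval
  -- a unit eigenvector with nonzero exponent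
  have main : ∃ (y₀ : L) (d : ZMod p), d ≠ 0 ∧ v y₀ = 1 ∧
      ∀ τ : G, τ • y₀ = z (d * c τ) * y₀ := by
    obtain ⟨i₀, -, hmax⟩ := Finset.exists_max_image Finset.univ (fun i => v (β i))
      ⟨0, Finset.mem_univ _⟩
    have h1 : 1 ≤ v (β i₀) := by
      by_contra hlt
      rw [not_le] at hlt
      have : v (∑ i : ZMod p, β i) < 1 :=
        Valuation.map_sum_lt v one_ne_zero
          (fun i _ => lt_of_le_of_lt (hmax i (Finset.mem_univ _)) hlt)
      rw [hsum] at this
      exact lt_irrefl _ this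
    rcases eq_or_lt_of_le h1 with h1 | h1
    · refine ⟨β i₀, i₀, ?_, h1.symm, fun τ => β_smul τ i₀⟩
      rintro rfl
      rw [β_zero, map_zero] at h1
      exact one_ne_zero h1
    · have hex : ∃ i₁, i₁ ≠ i₀ ∧ v (β i₁) = v (β i₀) := by
        by_contra hne
        push Not at hne
        have : v (∑ i : ZMod p, β i) = v (β i₀) := by
          refine Valuation.map_sum_eq_of_lt v (Finset.mem_univ i₀) (fun i hi => ?_)
          have hi' : i ≠ i₀ := by
            simpa using hi
          exact lt_of_le_of_ne (hmax i (Finset.mem_univ _)) (hne i hi')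
        rw [hsum] at this
        rw [← this] at h1
        exact lt_irrefl _ h1
      obtain ⟨i₁, hi₁, heq⟩ := hex
      have hβ0 : β i₀ ≠ 0 := by
        intro h0
        rw [h0, map_zero] at h1
        exact not_lt.mpr zero_le h1
      have hβ1 : β i₁ ≠ 0 := by
        intro h0
        rw [h0, map_zero] at heq
        rw [← heq] at h1
        exact not_lt.mpr zero_le h1
      refine ⟨β i₀ / β i₁, i₀ - i₁, sub_ne_zero.mpr (Ne.symm hi₁), ?_, fun τ => ?_⟩
      · rw [map_div₀, heq, div_self]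
        rw [Ne, map_eq_zero]
        exact hβ0
      · have hzs : z (i₀ * c τ - i₁ * c τ) = z (i₀ * c τ) / z (i₁ * c τ) := zpw_sub hζ _ _
        have hz1 : z (i₁ * c τ) ≠ 0 := zpw_ne_zero hζ (i₁ * c τ)
        rw [smul_div₀', β_smul, β_smul, sub_mul, hzs]
        field_simp
  obtain ⟨y₀, d, hd, hy₀, hτ⟩ := main
  have hyv : v (y₀ ^ (d⁻¹).val) = 1 := by
    rw [map_pow, hy₀, one_pow]
  refine ⟨y₀ ^ (d⁻¹).val, ?_, ?_, fun τ => ?_⟩
  · exact (A.valuation_le_one_iff _).mp hyv.le
  · refine (A.valuation_le_one_iff _).mp ?_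
    rw [map_inv₀, hyv, inv_one]
  · rw [smul_pow', hτ, mul_pow, zpw_pow hζ, ZMod.natCast_zmod_val, ← mul_assoc,
      inv_mul_cancel₀ hd, one_mul]
    rfl

end Fermat.Agent.Ribet.H287
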