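import Fermat.Agent.Ribet.H375.ELOCOrdSpec
import Fermat.Agent.Ribet.H287.KummerUnitCore

/-!
# RIBET row 38 / ELOC-ord / leaf (K) (helper287): `H375.KummerUnitStatement`, VERBATIM

The proof is `kummerUnit_core` (Mathlib only, `Ribet/H287/KummerUnitCore.lean`).
-/

set_option autoImplicit false

namespace Fermat.Agent.Ribet.H287

/-- **(K)**: the frozen leaf `H375.KummerUnitStatement`. -/
theorem kummerUnit : Fermat.Agent.Ribet.H375.KummerUnitStatement := by
  intro L _ A G _ _ p hp hpL hA ζ hζ hζfix c γ hγ b hb hb0 hval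
  exact kummerUnit_core L A G p hp hpL hA ζ hζ hζfix c γ hγ b hb hb0 hval

end Fermat.Agent.Ribet.H287
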